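import Fermat.Agent.GAL.KL.Defs
import Fermat.Prelude.Def_ModularCurve_LaurentCoeff

/-!
# GAL / KN / C / A2 : independence over `k₀[τ]` in `k₀((q))` persists over `k[τ]` in `k((q))`
-/

set_option autoImplicit false

namespace Fermat.Agent.GAL.KN

open Polynomial Fermat.Agent.GAL.KL ModularCurve

/-- an additive map applied coefficientwise. -/
noncomputable def baseIndΦ {k₀ k : Type*} [Field k₀] [Field k] (φ : k →+ k₀) :
    LaurentSeries k →+ LaurentSeries k₀ where
  toFun x := x.map φ
  map_zero' := by ext n; simp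
  map_add' x y := by ext n; simp

theorem baseIndΦ_coeff {k₀ k : Type*} [Field k₀] [Field k] (φ : k →+ k₀) (x : LaurentSeries k)
    (n : ℤ) : (baseIndΦ φ x).coeff n = φ (x.coeff n) := rfl

theorem baseInd_single_mul_coeff {k : Type*} [Field k] (c : k) (x : LaurentSeries k) (n : ℤ) :
    (HahnSeries.single 0 c * x).coeff n = c * x.coeff n := by
  have := HahnSeries.coeff_single_mul_add (r := c) (x := x) (a := n) (b := 0)
  rwa [add_zero] at this

theorem baseIndΦ_single_mul {k₀ k : Type*} [Field k₀] [Field k] (f : k₀ →+* k) (φ : k →+ k₀)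
    (hφ : ∀ (a : k₀) (c : k), φ (c * f a) = φ c * a) (c : k) (y : LaurentSeries k₀) :
    baseIndΦ φ (HahnSeries.single 0 c * coeffMap f y) = HahnSeries.single 0 (φ c) * y := by
  ext n
  rw [baseIndΦ_coeff, baseInd_single_mul_coeff, baseInd_single_mul_coeff, coeffMap_coeff, hφ]

/-- PROOF.  For a `k₀`-linear form `φ : k → k₀` (`k` is a `k₀`-vector space via `f`) let `Φ : k((q)) → k₀((q))` be `φ` applied
coefficientwise (support is contained in the support of the argument).  `Φ` is additive and
`Φ (C c * coeffMap f y) = C (φ c) * y` i.e. `Φ (z * coeffMap f y) = Φ z * y` for `z = C c`.  Apply `Φ` to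
`∑ i, ∑ n, C (p i).coeff n * coeffMap f (τ ^ n * w i) = 0`: `comb k₀ τ (fun i => (p i).map φ) w = 0` (coefficientwise `φ`), so
`φ ((p i).coeff n) = 0` for all `φ`, `i`, `n`; linear forms separate points (`Module.forall_dual_apply_eq_zero_iff` or a basis
`Module.Basis.ofVectorSpace`).  Compare `z4_lamS` in `GAL/CTV/Z/Descent.lean` (same trick for `ℚ ⊂ ℚ̄`).
WARNING: `algebraMap k (LaurentSeries k) c = HahnSeries.C c` is `KLC.GaussON_algebraMap` / `CT.tracePoly_algebraMap`
(the instance found is `HahnSeries.powerSeriesAlgebra`). -/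
theorem indep_coeffMap {k₀ k : Type*} [Field k₀] [Field k] (f : k₀ →+* k) (τ : LaurentSeries k₀)
    {n : ℕ} (w : Fin n → LaurentSeries k₀)
    (h : ∀ p : Fin n → k₀[X], comb k₀ τ p w = 0 → p = 0) :
    ∀ p : Fin n → k[X], comb k (coeffMap f τ) p (fun i => coeffMap f (w i)) = 0 → p = 0 := by
  intro p hp
  let _ := f.toAlgebra
  set N : ℕ := (Finset.univ.sup fun i => (p i).natDegree) + 1 with hN
  have hdeg : ∀ i, (p i).natDegree < N := fun i =>
    Nat.lt_succ_of_le (Finset.le_sup (f := fun i => (p i).natDegree) (Finset.mem_univ i))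
  -- the expansion of the combination
  have hexp : comb k (coeffMap f τ) p (fun i => coeffMap f (w i))
      = ∑ i, ∑ m ∈ Finset.range N,
          HahnSeries.single 0 ((p i).coeff m) * coeffMap f (τ ^ m * w i) := by
    rw [comb]
    refine Finset.sum_congr rfl fun i _ => ?_
    rw [aeval_eq_sum_range' (hdeg i), Finset.sum_mul]
    refine Finset.sum_congr rfl fun m _ => ?_
    rw [Algebra.smul_def, algebraMap_laurentSeries_eq_single, map_mul, map_pow, mul_assoc]
  have key : ∀ φ : Module.Dual k₀ k, ∀ i m, φ ((p i).coeff m) = 0 := by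
    intro φ i m
    have hφ : ∀ (a : k₀) (c : k), φ.toAddMonoidHom (c * f a) = φ.toAddMonoidHom c * a := by
      intro a c
      have : c * f a = a • c := by rw [Algebra.smul_def, mul_comm]; rfl
      rw [this]
      show φ (a • c) = φ c * a
      rw [map_smul, smul_eq_mul, mul_comm]
    set pφ : Fin n → k₀[X] := fun i => ∑ m ∈ Finset.range N, monomial m (φ ((p i).coeff m)) with hpφ
    have h0 : comb k₀ τ pφ w = 0 := by
      have h1 := congrArg (baseIndΦ φ.toAddMonoidHom) hp
      rw [hexp, map_zero, map_sum] at h1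
      rw [comb, ← h1]
      refine Finset.sum_congr rfl fun i _ => ?_
      rw [map_sum, map_sum, Finset.sum_mul]
      refine Finset.sum_congr rfl fun m _ => ?_
      rw [baseIndΦ_single_mul f _ hφ, aeval_monomial, algebraMap_laurentSeries_eq_single, mul_assoc]
      rfl
    have h2 := congrFun (h pφ h0) i
    have h3 := congrArg (fun P : k₀[X] => P.coeff m) h2
    simp only [hpφ, Pi.zero_apply, coeff_zero, finsetSum_coeff, coeff_monomial] at h3
    by_cases hm : m < N
    · rw [Finset.sum_ite_eq' (Finset.range N) m, if_pos (Finset.mem_range.mpr hm)] at h3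
      exact h3
    · rw [coeff_eq_zero_of_natDegree_lt (lt_of_lt_of_le (hdeg i) (not_lt.mp hm)), map_zero]
  funext i
  ext m
  rw [Pi.zero_apply, coeff_zero]
  exact (Module.forall_dual_apply_eq_zero_iff k₀ _).mp fun φ => key φ i m

end Fermat.Agent.GAL.KN
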