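import Mathlib

/-!
# GAL / KN / C / A7 : the integral closure of `O[X]` in a finite extension of its fraction field (char 0) is a finite module
-/

set_option autoImplicit false

namespace Fermat.Agent.GAL.KN

open Polynomial

/-- a field spanned "up to denominators" by a finite set is finite over the fraction field -/
theorem finGen_finite_aux {R F₀ : Type*} [CommRing R] [IsDomain R] [Field F₀] [Algebra R F₀]
    (K : Type*) [Field K] [Algebra R K] [IsFractionRing R K] [Algebra K F₀]
    [IsScalarTower R K F₀] (s₀ : Finset F₀)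
    (hs₀ : ∀ x : F₀, ∃ (a : R) (c : F₀ → R), a ≠ 0 ∧
      algebraMap R F₀ a * x = ∑ y ∈ s₀, algebraMap R F₀ (c y) * y) :
    Module.Finite K F₀ := by
  refine ⟨⟨s₀, ?_⟩⟩
  rw [eq_top_iff]
  intro x _
  obtain ⟨a, c, ha, h⟩ := hs₀ x
  have ha' : algebraMap R K a ≠ 0 := by
    intro h0
    exact ha ((IsFractionRing.injective R K) (by rw [h0, map_zero]))
  have hx : x = (algebraMap R K a)⁻¹ • ∑ y ∈ s₀, algebraMap R K (c y) • y := by
    rw [eq_inv_smul_iff₀ ha', algebraMap_smul, Algebra.smul_def, h]
    refine Finset.sum_congr rfl fun y _ => ?_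
    rw [algebraMap_smul, Algebra.smul_def]
  rw [hx]
  exact Submodule.smul_mem _ _ (Submodule.sum_mem _ fun y hy =>
    Submodule.smul_mem _ _ (Submodule.subset_span hy))

/-- PROOF.  `R = O[X]` is noetherian and integrally closed (`O` PID ⇒ UFD ⇒ `O[X]` UFD
(`Polynomial.uniqueFactorizationMonoid`) ⇒ integrally closed (`UniqueFactorizationMonoid` → `IsIntegrallyClosed` instance)).
`let _ := i.toAlgebra`; `K = FractionRing R`; `FractionRing.liftAlgebra R F₀` (`FaithfulSMul` from `hi`); `FiniteDimensional K F₀`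
from `hs₀` (`x = (a)⁻¹ • ∑ c y • y`, as in `KL/LatticeFree.exists_basis_BB_aux`); separable because of characteristic zero.
`IsIntegralClosure.finite R K F₀ (integralClosure R F₀)` gives `Module.Finite`; take a finite generating set
(`Module.Finite.fg_top`, `Submodule.fg_def` / `Submodule.mem_span_finset`) and push it to `F₀`. -/
theorem exists_finset_gen {O F₀ : Type*} [CommRing O] [IsDomain O] [IsPrincipalIdealRing O]
    [Field F₀] [CharZero F₀] (i : O[X] →+* F₀) (hi : Function.Injective i)
    (s₀ : Finset F₀)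
    (hs₀ : ∀ x : F₀, ∃ (a : O[X]) (c : F₀ → O[X]), a ≠ 0 ∧ i a * x = ∑ y ∈ s₀, i (c y) * y) :
    ∃ s : Finset F₀, (∀ y ∈ s, i.IsIntegralElem y) ∧
      ∀ x, i.IsIntegralElem x → ∃ c : F₀ → O[X], x = ∑ y ∈ s, i (c y) * y := by
  classical
  let _ := i.toAlgebra
  have : FaithfulSMul O[X] F₀ := (faithfulSMul_iff_algebraMap_injective _ _).2 hi
  let _ := FractionRing.liftAlgebra O[X] F₀
  have : Module.Finite (FractionRing O[X]) F₀ := finGen_finite_aux (FractionRing O[X]) s₀ hs₀
  have : CharZero (FractionRing O[X]) :=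
    (RingHom.charZero_iff (algebraMap (FractionRing O[X]) F₀).injective).2 inferInstance
  have : Module.Finite O[X] (integralClosure O[X] F₀) :=
    IsIntegralClosure.finite O[X] (FractionRing O[X]) F₀ (integralClosure O[X] F₀)
  obtain ⟨t, ht⟩ := Module.Finite.fg_top (R := O[X]) (M := integralClosure O[X] F₀)
  refine ⟨t.image Subtype.val, ?_, ?_⟩
  · intro y hy
    obtain ⟨z, -, rfl⟩ := Finset.mem_image.1 hy
    exact z.2
  · intro x hx
    have hmem : (⟨x, hx⟩ : integralClosure O[X] F₀) ∈ Submodule.span O[X] (t : Set _) := by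
      rw [ht]; trivial
    obtain ⟨f, -, hf⟩ := Submodule.mem_span_finset.1 hmem
    refine ⟨fun y => if h : y ∈ integralClosure O[X] F₀ then f ⟨y, h⟩ else 0, ?_⟩
    rw [Finset.sum_image fun a _ b _ h => Subtype.ext h]
    have h2 := congrArg (Subtype.val : integralClosure O[X] F₀ → F₀) hf
    simp only [AddSubmonoidClass.coe_finsetSum] at h2
    rw [← h2]
    refine Finset.sum_congr rfl fun z _ => ?_
    show _ = i (if h : (z : F₀) ∈ integralClosure O[X] F₀ then f ⟨z, h⟩ else 0) * (z : F₀)
    rw [dif_pos z.2]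
    exact Algebra.smul_def (f z) (z : F₀)

/-- every element of `F₀` has a nonzero multiple which is integral (`exists_integral_multiple`; `x` is algebraic over `O[X]` by `hs₀`:
finite dimensional over the fraction field). -/
theorem exists_mul_isIntegralElem {O F₀ : Type*} [CommRing O] [IsDomain O]
    [Field F₀] (i : O[X] →+* F₀) (hi : Function.Injective i)
    (s₀ : Finset F₀)
    (hs₀ : ∀ x : F₀, ∃ (a : O[X]) (c : F₀ → O[X]), a ≠ 0 ∧ i a * x = ∑ y ∈ s₀, i (c y) * y)
    (x : F₀) : ∃ a : O[X], a ≠ 0 ∧ i.IsIntegralElem (i a * x) := by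
  let _ := i.toAlgebra
  have : FaithfulSMul O[X] F₀ := (faithfulSMul_iff_algebraMap_injective _ _).2 hi
  let _ := FractionRing.liftAlgebra O[X] F₀
  have : Module.Finite (FractionRing O[X]) F₀ := finGen_finite_aux (FractionRing O[X]) s₀ hs₀
  have halg : IsAlgebraic (FractionRing O[X]) x := Algebra.IsAlgebraic.isAlgebraic x
  have halg' : IsAlgebraic O[X] x := (IsFractionRing.isAlgebraic_iff O[X] (FractionRing O[X]) F₀).2 halg
  obtain ⟨a, ha, hint⟩ := halg'.exists_integral_multiple
  refine ⟨a, ha, ?_⟩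
  have : a • x = i a * x := Algebra.smul_def a x
  rw [← this]
  exact hint

end Fermat.Agent.GAL.KN
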