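import Mathlib

/-!
# GAL / KN / C / A3 : lifting a basis of `B / ϖ B`  (pure commutative algebra)

`O` a PID, `ϖ` a prime with residue field `κ`, `i : O[X] → F₀` (evaluation at `t`), `B` a subring of `F₀` which is a finite
`O[X]`-module, `red : B → Ē` a ring hom into a field with kernel `ϖ B`, compatible with `O[X] → κ[X] → Ē`, `X ↦ τ`, `τ` transcendental.
Then there are `b₁ … b_d ∈ B` whose reductions are independent over `κ[τ]` and which generate `B` up to a denominator
`a ≡ 1 mod ϖ`.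
-/

set_option autoImplicit false

namespace Fermat.Agent.GAL.KN

open Polynomial

/-- Nakayama's lemma, relative form. -/
theorem Lift_nakayama {R M : Type*} [CommRing R] [AddCommGroup M] [Module R M] (I : Ideal R)
    (Bm N : Submodule R M) (hfg : Bm.FG) (h : Bm ≤ N ⊔ I • Bm) :
    ∃ r : R, r - 1 ∈ I ∧ ∀ x ∈ Bm, r • x ∈ N := by
  have h1 : Bm.map N.mkQ ≤ I • Bm.map N.mkQ := by
    rw [← Submodule.map_smul'']
    rintro _ ⟨x, hx, rfl⟩
    obtain ⟨n, hn, y, hy, rfl⟩ := Submodule.mem_sup.1 (h hx)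
    refine ⟨y, hy, ?_⟩
    rw [map_add, Submodule.mkQ_apply, Submodule.mkQ_apply,
      (Submodule.Quotient.mk_eq_zero N).2 hn, zero_add]
  obtain ⟨r, hr, hr0⟩ :=
    Submodule.exists_sub_one_mem_and_smul_eq_zero_of_fg_of_le_smul I _ (hfg.map _) h1
  refine ⟨r, hr, fun x hx => ?_⟩
  have := hr0 (N.mkQ x) ⟨x, hx, rfl⟩
  rwa [← map_smul, Submodule.mkQ_apply, Submodule.Quotient.mk_eq_zero] at this

/-- PROOF.  Make `Ē` a `κ[X]`-module via `aeval τ` (`letI := (aeval τ).toAlgebra`); it is torsion free (`hτ`).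
`N̄ = red(B)` is the `κ[X]`-submodule spanned by `red (g y)`, `y ∈ s` (use `hgen`, `hred`, surjectivity of `map res`).  It is finitely
generated and torsion free over the PID `κ[X]`, hence free (`Module.free_of_finite_type_torsion_free'`,
`Module.Free.chooseBasis`, `Module.finBasis`); its basis vectors are `red (b j)`.  This gives independence.
For `x : B`: `red x = ∑ p̄ j (τ) red (b j)`; lift `p̄ j` to `O[X]`: `x - ∑ i (p j) b j ∈ ker red = ϖ B`.
So `Q = B / ∑ O[X] b j` (as an `O[X]`-module via `i`; f.g.) satisfies `Q = ϖ Q`: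
`Submodule.exists_sub_one_mem_and_smul_eq_zero_of_fg_of_le_smul (Ideal.span {C ϖ}) ⊤` gives `a` with `a - 1 ∈ (ϖ)` and `a Q = 0`. -/
theorem exists_lift_basis {O κ F₀ Eb : Type*} [CommRing O] [IsDomain O] [IsPrincipalIdealRing O]
    [Field κ] [Field F₀] [Field Eb] [Algebra κ Eb]
    (ϖ : O) (res : O →+* κ) (hres : Function.Surjective res) (hker : ∀ a, res a = 0 ↔ ϖ ∣ a)
    (i : O[X] →+* F₀) (τ : Eb) (hτ : Transcendental κ τ)
    (B : Subring F₀) (hiB : ∀ p, i p ∈ B)
    (s : Finset F₀) (hsB : ∀ y ∈ s, y ∈ B)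
    (hgen : ∀ x ∈ B, ∃ c : F₀ → O[X], x = ∑ y ∈ s, i (c y) * y)
    (red : B →+* Eb) (hred : ∀ p : O[X], red ⟨i p, hiB p⟩ = aeval τ (p.map res))
    (hkerB : ∀ x : B, red x = 0 → ∃ y : B, (x : F₀) = i (C ϖ) * y) :
    ∃ (d : ℕ) (b : Fin d → B),
      (∀ p : Fin d → κ[X], ∑ j, aeval τ (p j) * red (b j) = 0 → p = 0) ∧
      ∀ x : B, ∃ (a : O[X]) (c : Fin d → O[X]), a.map res = 1 ∧
        i a * (x : F₀) = ∑ j, i (c j) * (b j : F₀) := by
  classical
  have hmap : Function.Surjective (Polynomial.map res) := Polynomial.map_surjective res hres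
  -- the `κ[X]`-module `Ē`
  let _ : Module κ[X] Eb := Module.compHom Eb ((aeval τ : κ[X] →ₐ[κ] Eb) : κ[X] →+* Eb)
  have hsmulE : ∀ (p : κ[X]) (e : Eb), p • e = aeval τ p * e := fun _ _ => rfl
  have : Module.IsTorsionFree κ[X] Eb := Module.IsTorsionFree.of_smul_eq_zero fun p e h => by
    rw [hsmulE, mul_eq_zero] at h
    exact h.imp (fun h => (transcendental_iff.1 hτ) p h) id
  -- the image of `red`
  let Nb : Submodule κ[X] Eb :=
    { carrier := Set.range red
      add_mem' := by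
        rintro _ _ ⟨x, rfl⟩ ⟨y, rfl⟩
        exact ⟨x + y, map_add _ _ _⟩
      zero_mem' := ⟨0, map_zero _⟩
      smul_mem' := by
        rintro p _ ⟨x, rfl⟩
        obtain ⟨P, rfl⟩ := hmap p
        exact ⟨⟨i P, hiB P⟩ * x, by rw [map_mul, hred, hsmulE]⟩ }
  have hNb : ∀ e : Eb, e ∈ Nb ↔ ∃ x, red x = e := fun _ => Iff.rfl
  have hfgNb : Nb.FG := by
    refine ⟨s.attach.image fun y => red ⟨y.1, hsB y.1 y.2⟩, le_antisymm ?_ ?_⟩
    · rw [Submodule.span_le]
      intro e he
      obtain ⟨y, -, rfl⟩ := Finset.mem_image.1 (Finset.mem_coe.1 he)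
      exact ⟨_, rfl⟩
    · rintro _ ⟨x, rfl⟩
      obtain ⟨c, hc⟩ := hgen x x.2
      have hx : x = ∑ y ∈ s.attach, (⟨i (c y.1), hiB _⟩ : B) * ⟨y.1, hsB y.1 y.2⟩ := by
        apply Subtype.ext
        rw [hc, ← Finset.sum_attach]
        push_cast
        rfl
      rw [hx, map_sum]
      refine Submodule.sum_mem _ fun y hy => ?_
      rw [map_mul, hred, ← hsmulE]
      exact Submodule.smul_mem _ _ (Submodule.subset_span
        (Finset.mem_coe.2 (Finset.mem_image_of_mem _ hy)))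
  have : Module.Finite κ[X] Nb := Module.Finite.iff_fg.2 hfgNb
  obtain ⟨d, bas⟩ := Module.basisOfFiniteTypeTorsionFree' (R := κ[X]) (M := Nb)
  choose b hb using fun j => (bas j).2
  refine ⟨d, b, fun p hp => ?_, ?_⟩
  · have h0 : ∑ j, p j • bas j = 0 := by
      apply Subtype.ext
      rw [Submodule.coe_sum, Submodule.coe_zero, ← hp]
      refine Finset.sum_congr rfl fun j _ => ?_
      rw [Submodule.coe_smul, hsmulE, hb]
    funext j
    exact Fintype.linearIndependent_iff.1 bas.linearIndependent p h0 j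
  -- the `O[X]`-module `F₀`
  let _ : Module O[X] F₀ := Module.compHom F₀ i
  have hsmulF : ∀ (p : O[X]) (x : F₀), p • x = i p * x := fun _ _ => rfl
  let Bm : Submodule O[X] F₀ :=
    { carrier := B
      add_mem' := B.add_mem
      zero_mem' := B.zero_mem
      smul_mem' := fun p x hx => B.mul_mem (hiB p) hx }
  have hBm : ∀ x, x ∈ Bm ↔ x ∈ B := fun _ => Iff.rfl
  have hfgBm : Bm.FG := by
    refine ⟨s, le_antisymm (Submodule.span_le.2 hsB) fun x hx => ?_⟩
    obtain ⟨c, hc⟩ := hgen x hx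
    rw [hc]
    exact Submodule.sum_mem _ fun y hy => Submodule.smul_mem _ _ (Submodule.subset_span hy)
  let N : Submodule O[X] F₀ := Submodule.span O[X] (Set.range fun j => (b j : F₀))
  have hle : Bm ≤ N ⊔ Ideal.span {(C ϖ : O[X])} • Bm := by
    intro x hx
    have hxN : red ⟨x, hx⟩ ∈ Nb := ⟨_, rfl⟩
    choose P hP using fun j => hmap (bas.repr ⟨red ⟨x, hx⟩, hxN⟩ j)
    have hsum : red ⟨x, hx⟩ = ∑ j, aeval τ ((P j).map res) * red (b j) := by
      have h1 := congrArg Subtype.val (bas.sum_repr ⟨red ⟨x, hx⟩, hxN⟩)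
      rw [Submodule.coe_sum] at h1
      refine h1.symm.trans ?_
      refine Finset.sum_congr rfl fun j _ => ?_
      rw [Submodule.coe_smul, hsmulE, hb, hP]
    have hzero : red (⟨x, hx⟩ - ∑ j, (⟨i (P j), hiB _⟩ : B) * b j) = 0 := by
      rw [map_sub, map_sum, hsum, sub_eq_zero]
      refine Finset.sum_congr rfl fun j _ => ?_
      rw [map_mul, hred]
    obtain ⟨y, hy⟩ := hkerB _ hzero
    have hx' : x = ∑ j, i (P j) * (b j : F₀) + i (C ϖ) * y := by
      rw [← hy]
      push_cast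
      ring
    rw [hx']
    refine Submodule.add_mem_sup (Submodule.sum_mem _ fun j _ => ?_) ?_
    · exact Submodule.smul_mem _ _ (Submodule.subset_span ⟨j, rfl⟩)
    · exact Submodule.smul_mem_smul (Ideal.mem_span_singleton_self _) y.2
  obtain ⟨r, hr, hrN⟩ := Lift_nakayama _ Bm N hfgBm hle
  have hr1 : r.map res = 1 := by
    obtain ⟨u, hu⟩ := Ideal.mem_span_singleton.1 hr
    have : r = 1 + C ϖ * u := by rw [← hu]; ring
    rw [this, Polynomial.map_add, Polynomial.map_one, Polynomial.map_mul, Polynomial.map_C,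
      (hker ϖ).2 dvd_rfl, C_0, zero_mul, add_zero]
  intro x
  obtain ⟨c, hc⟩ := (Submodule.mem_span_range_iff_exists_fun O[X]).1 (hrN x x.2)
  exact ⟨r, c, hr1, hc.symm⟩

end Fermat.Agent.GAL.KN
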