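import Fermat.Agent.GAL.KN.Red

/-!
# GAL / KN / C / A1 : a family whose reductions are independent over `k[t̄]` is orthonormal
-/

set_option autoImplicit false

namespace Fermat.Agent.GAL.KN

open Polynomial Fermat.Agent.GAL.KL

variable {L F Γ₀ : Type*} [Field L] [Field F] [Algebra L F] [LinearOrderedCommGroupWithZero Γ₀]
  {v : Valuation F Γ₀} {t : F} {k E : Type*} [Field k] [Field E] [Algebra k E]

/-- the key inequality: every coordinate is bounded by the combination. -/
theorem OnRed_le_comb (D : RedData L v k E) (hG : Gauss L v t) {n : ℕ} (e : Fin n → F)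
    (he : ∀ i, v (e i) ≤ 1)
    (hind : ∀ p : Fin n → k[X], comb k (D.red t) p (fun i => D.red (e i)) = 0 → p = 0)
    (p : Fin n → L[X]) (i : Fin n) : v (aeval t (p i)) ≤ v (comb L t p e) := by
  obtain ⟨i₀, -, hi₀⟩ := Finset.exists_max_image Finset.univ (fun i => v (aeval t (p i)))
    ⟨i, Finset.mem_univ i⟩
  refine (hi₀ i (Finset.mem_univ i)).trans ?_
  rcases eq_or_ne (v (aeval t (p i₀))) 0 with h0 | h0
  · rw [h0]; exact zero_le
  obtain ⟨a, ha⟩ := hG.exists_const (p i₀)
  have hva : v (algebraMap L F a) ≠ 0 := ha ▸ h0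
  have haev : ∀ j, aeval t (C a⁻¹ * p j) = algebraMap L F a⁻¹ * aeval t (p j) := by
    intro j
    rw [map_mul, aeval_C]
  have hle : ∀ j, v (aeval t (C a⁻¹ * p j)) ≤ 1 := by
    intro j
    rw [haev, map_mul, map_inv₀, map_inv₀, ← ha]
    calc (v (aeval t (p i₀)))⁻¹ * v (aeval t (p j))
        ≤ (v (aeval t (p i₀)))⁻¹ * v (aeval t (p i₀)) :=
          mul_le_mul_right (hi₀ j (Finset.mem_univ j)) _
      _ = 1 := inv_mul_cancel₀ h0
  choose P hP using fun j => RedData.exists_up (D := D) hG (C a⁻¹ * p j) (hle j)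
  have hdn : D.dn (P i₀) ≠ 0 := by
    rw [Ne, RedData.dn_eq_zero_iff hG, hP, haev, map_mul, map_inv₀, map_inv₀, ← ha,
      inv_mul_cancel₀ h0]
    exact lt_irrefl _
  have hred : D.red (comb L t (fun j => D.up (P j)) e) ≠ 0 := by
    rw [RedData.red_comb hG e he]
    intro h
    exact hdn (congrFun (hind _ h) i₀)
  rw [Ne, D.red_eq_zero_iff (RedData.v_comb_up_le hG e he P), not_lt] at hred
  have hcomb : comb L t (fun j => D.up (P j)) e = algebraMap L F a⁻¹ * comb L t p e := by
    unfold comb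
    rw [Finset.mul_sum]
    refine Finset.sum_congr rfl fun j _ => ?_
    show aeval t (D.up (P j)) * e j = _
    rw [hP, haev, mul_assoc]
  rw [hcomb, map_mul, map_inv₀, map_inv₀, ← ha] at hred
  calc v (aeval t (p i₀)) = v (aeval t (p i₀)) * 1 := (mul_one _).symm
    _ ≤ v (aeval t (p i₀)) * ((v (aeval t (p i₀)))⁻¹ * v (comb L t p e)) :=
      mul_le_mul_right hred _
    _ = v (comb L t p e) := by rw [← mul_assoc, mul_inv_cancel₀ h0, one_mul]

/-- PROOF.  `(⇐)` of `ON`: ultrametric inequality (`v.map_sum_le`, `v (e i) ≤ 1`).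
`(⇒)`: let `p ≠ 0`; choose `i₀` with `v (p i₀ (t))` maximal (`Finset.exists_max_image`) and `a : L` with
`v a = v (p i₀ (t))` (`Gauss.exists_const`), `a ≠ 0`.  `p' i = C a⁻¹ * p i` has `v (p' i (t)) ≤ 1`, so `p' i = D.up (P i)`
(`RedData.exists_up`), `D.dn (P i₀) ≠ 0` (`RedData.dn_eq_zero_iff`).  By `RedData.red_comb` and `hind`,
`D.red (comb p' e) ≠ 0`, so `v (comb p' e) = 1` (`D.red_eq_zero_iff`), i.e. `v (comb p e) = v a`. -/
theorem on_of_red_indep (D : RedData L v k E) (hG : Gauss L v t) {n : ℕ} (e : Fin n → F)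
    (he : ∀ i, v (e i) ≤ 1)
    (hind : ∀ p : Fin n → k[X], comb k (D.red t) p (fun i => D.red (e i)) = 0 → p = 0) :
    ON L v t e := by
  intro p γ
  constructor
  · intro h i
    exact (OnRed_le_comb D hG e he hind p i).trans h
  · intro h
    unfold comb
    refine v.map_sum_le fun i _ => ?_
    rw [map_mul]
    calc v (aeval t (p i)) * v (e i) ≤ γ * 1 := mul_le_mul' (h i) (he i)
      _ = γ := mul_one _

end Fermat.Agent.GAL.KN
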