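import Mathlib

/-!
# GAL / KN / C / A5 : integrality over `O[t]` versus `O[j]` when `Nt(t) = j t^r`, `Nt` monic of degree `> r`
-/

set_option autoImplicit false

namespace Fermat.Agent.GAL.KN

open Polynomial

variable {O F₀ : Type*} [CommRing O] [Field F₀] (φ : O →+* F₀) (j t : F₀) (Nt : O[X]) (r : ℕ)

/-- `t` is a root of the monic polynomial `Nt - j X^r` over `O[j]`, so integral over `O[j]`; transitivity of integrality
(`letI := (eval₂RingHom φ j).toAlgebra`; `IsIntegral.trans`-type lemma: `isIntegral_trans`, or: `z` is integral over the subring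
`O[j][t]`, which is integral over `O[j]`: `RingHom.IsIntegralElem`, `IsIntegral.of_mem_of_fg`, `Algebra.IsIntegral.trans`). -/
theorem isIntegralElem_of_isIntegralElem (hN : Nt.Monic) (hr : r < Nt.natDegree)
    (hrel : eval₂ φ t Nt = j * t ^ r) (z : F₀) (hz : (eval₂RingHom φ t).IsIntegralElem z) :
    (eval₂RingHom φ j).IsIntegralElem z := by
  let _ : Algebra O[X] F₀ := (eval₂RingHom φ j).toAlgebra
  have hnt : Nontrivial O := φ.domain_nontrivial
  have halg : ∀ a : O[X], algebraMap O[X] F₀ a = eval₂ φ j a := fun _ => rfl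
  -- `t` is integral
  have ht : IsIntegral O[X] t := by
    refine ⟨Nt.map C - C X * X ^ r, ?_, ?_⟩
    · apply (hN.map C).sub_of_left
      refine lt_of_le_of_lt (degree_C_mul_X_pow_le r _) ?_
      rw [degree_eq_natDegree (hN.map C).ne_zero, hN.natDegree_map]
      exact_mod_cast hr
    · rw [eval₂_sub, eval₂_map, eval₂_mul, eval₂_C, eval₂_pow, eval₂_X, halg, eval₂_X]
      have : (algebraMap O[X] F₀).comp C = φ := by
        ext a
        simp [halg]
      rw [this, hrel, sub_self]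
  obtain ⟨Q, hQ, hQz⟩ := hz
  let IC := integralClosure O[X] F₀
  let ψ : O[X] →+* IC := eval₂RingHom ((algebraMap O[X] IC).comp C) ⟨t, ht⟩
  have hψ : (algebraMap IC F₀).comp ψ = eval₂RingHom φ t := by
    apply Polynomial.ringHom_ext
    · intro a
      simp only [ψ, RingHom.comp_apply, coe_eval₂RingHom, eval₂_C]
      rw [← IsScalarTower.algebraMap_apply, halg, eval₂_C]
    · simp only [ψ, RingHom.comp_apply, coe_eval₂RingHom, eval₂_X]
      rfl
  have hz' : IsIntegral IC z := by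
    refine ⟨Q.map ψ, hQ.map ψ, ?_⟩
    rw [eval₂_map, hψ, hQz]
  exact isIntegral_trans (R := O[X]) (A := IC) z hz'

/-- clearing the denominators `t^r` of a polynomial in `j = Nt(t) / t^r` -/
theorem shift_exists_eval₂_eq (hrel : eval₂ φ t Nt = j * t ^ r) (D : ℕ) (a : O[X]) (ha : a.natDegree ≤ D) :
    ∃ b : O[X], eval₂ φ t b = t ^ (r * D) * eval₂ φ j a := by
  refine ⟨∑ m ∈ Finset.range (D + 1), C (a.coeff m) * Nt ^ m * X ^ (r * (D - m)), ?_⟩
  rw [eval₂_finsetSum, eval₂_eq_sum_range' φ (Nat.lt_succ_of_le ha) j, Finset.mul_sum]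
  refine Finset.sum_congr rfl fun m hm => ?_
  obtain ⟨k, rfl⟩ := Nat.exists_eq_add_of_le (Nat.lt_succ_iff.1 (Finset.mem_range.1 hm))
  rw [eval₂_mul, eval₂_mul, eval₂_C, eval₂_pow, eval₂_pow, eval₂_X, hrel, Nat.add_sub_cancel_left]
  ring

/-- if `g^n + ∑_{l<n} a_l(j) g^l = 0` and `D ≥ deg a_l` then `t^(rD) a_l(j) = ã_l(t)` with `ã_l ∈ O[X]`
(`ã = ∑_m coeff a m * Nt^m * X^(r(D-m))`), and with `N = r D`:
`(t^N g)^n + ∑ ã_l(t) t^(N(n-l-1)) (t^N g)^l = 0`.  Same pattern as `KL.IsInt.shift` (`GAL/KL/BasicInt.lean`).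
(`t = 0` is harmless: the identity `t^(rD) a(j) = ã(t)` only uses `hrel`.) -/
theorem exists_pow_mul_isIntegralElem (hrel : eval₂ φ t Nt = j * t ^ r) (g : F₀)
    (hg : (eval₂RingHom φ j).IsIntegralElem g) :
    ∃ N : ℕ, (eval₂RingHom φ t).IsIntegralElem (t ^ N * g) := by
  have hnt : Nontrivial O := φ.domain_nontrivial
  obtain ⟨Q, hQ, hQg⟩ := hg
  set n := Q.natDegree with hn
  set D := (Finset.range n).sup fun l => (Q.coeff l).natDegree with hD
  have hex : ∀ l : ℕ, ∃ b : O[X], l ∈ Finset.range n → eval₂ φ t b = t ^ (r * D) * eval₂ φ j (Q.coeff l) := by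
    intro l
    by_cases hl : l ∈ Finset.range n
    · obtain ⟨b, hb⟩ := shift_exists_eval₂_eq φ j t Nt r hrel D (Q.coeff l)
        (Finset.le_sup (f := fun l => (Q.coeff l).natDegree) hl)
      exact ⟨b, fun _ => hb⟩
    · exact ⟨0, fun h => absurd h hl⟩
  choose b hb using hex
  refine ⟨r * D, ?_⟩
  set P : O[X][X] := C (X ^ (r * D)) * X ^ n + ∑ l ∈ Finset.range n, C (b l) * X ^ l with hP
  have hlead : P.leadingCoeff = X ^ (r * D) := by
    rw [hP, leadingCoeff_add_of_degree_lt', leadingCoeff_C_mul_X_pow]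
    rw [degree_C_mul_X_pow n (monic_X_pow (R := O) (r * D)).ne_zero]
    refine lt_of_le_of_lt (degree_sum_le _ _) ?_
    refine (Finset.sup_lt_iff (WithBot.bot_lt_coe n)).2 ?_
    intro l hl
    refine lt_of_le_of_lt (degree_C_mul_X_pow_le l _) ?_
    exact WithBot.coe_lt_coe.2 (Finset.mem_range.1 hl)
  have heval : eval₂ (eval₂RingHom φ t) g P = 0 := by
    have h1 : eval₂ (eval₂RingHom φ t) g P = t ^ (r * D) * eval₂ (eval₂RingHom φ j) g Q := by
      rw [eval₂_eq_sum_range' (eval₂RingHom φ j) (Nat.lt_succ_self Q.natDegree) g, Finset.sum_range_succ,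
        ← hn, hn, hQ.coeff_natDegree, ← hn, map_one, one_mul, hP, eval₂_add, eval₂_mul, eval₂_C, eval₂_pow,
        eval₂_X, eval₂_finsetSum, mul_add, Finset.mul_sum, add_comm]
      congr 1
      · refine Finset.sum_congr rfl fun l hl => ?_
        rw [eval₂_mul, eval₂_C, eval₂_pow, eval₂_X, coe_eval₂RingHom, coe_eval₂RingHom, hb l hl, mul_assoc]
      · rw [coe_eval₂RingHom, eval₂_pow, eval₂_X]
    rw [h1, hQg, mul_zero]
  have := RingHom.isIntegralElem_leadingCoeff_mul (eval₂RingHom φ t) P g heval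
  rwa [hlead, coe_eval₂RingHom, eval₂_pow, eval₂_X] at this

end Fermat.Agent.GAL.KN
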