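import Fermat.Agent.GAL.KL.Defs

/-!
# GAL / KN / C / A6 : base change of `Spans` (from `F₀ / Frac O[t]` to `F = L · F₀` over `L(t)`)
-/

set_option autoImplicit false

namespace Fermat.Agent.GAL.KN

open Polynomial Fermat.Agent.GAL.KL

theorem SpansBC_exists_frac {K F : Type*} [Field K] [Field F] [Algebra K F] {t : F}
    (c : IntermediateField.adjoin K {t}) :
    ∃ r s : K[X], s ≠ 0 ∧ (c : F) * aeval t s = aeval t r := by
  obtain ⟨r, s, h⟩ := (IntermediateField.mem_adjoin_simple_iff K (c : F)).1 c.2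
  by_cases hs : aeval t s = 0
  · refine ⟨0, 1, one_ne_zero, ?_⟩
    rw [h, hs, div_zero, zero_mul, map_zero]
  · refine ⟨r, s, fun h0 => hs (by rw [h0, map_zero]), ?_⟩
    rw [h, div_mul_cancel₀ _ hs]

/-- an element of the `L(t)`-span of `β` has the shape required by `Spans`. -/
theorem SpansBC_of_mem_span {L F : Type*} [Field L] [Field F] [Algebra L F] {t : F} {d : ℕ}
    (β : Fin d → F) {x : F}
    (hx : x ∈ Submodule.span (IntermediateField.adjoin L {t}) (Set.range β)) :
    ∃ (q : L[X]) (p : Fin d → L[X]), q ≠ 0 ∧ aeval t q * x = comb L t p β := by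
  classical
  obtain ⟨c, rfl⟩ := (Submodule.mem_span_range_iff_exists_fun _).mp hx
  choose r s hs0 hrs using fun i => SpansBC_exists_frac (c i)
  refine ⟨∏ j, s j, fun i => r i * ∏ j ∈ Finset.univ.erase i, s j,
    Finset.prod_ne_zero_iff.2 fun j _ => hs0 j, ?_⟩
  unfold comb
  rw [Finset.mul_sum]
  refine Finset.sum_congr rfl fun i _ => ?_
  rw [← Finset.mul_prod_erase Finset.univ s (Finset.mem_univ i), IntermediateField.smul_def,
    smul_eq_mul]
  simp only [map_mul]
  rw [← hrs i]
  ring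

/-- PROOF.  `t = Φ t₀`, `β j = Φ (b j)`.  `W = {x : F | ∃ q p, q ≠ 0 ∧ aeval t q * x = comb L t p β}`.
* `Φ y ∈ W`: apply `Φ` to `hb y`; `Φ (eval₂ φ t₀ a) = aeval t (a.map ψ)` (`hcomp`, `Polynomial.hom_eval₂`, `aeval_def`, `eval₂_map`),
  `a.map ψ ≠ 0` by `hψ`.
* `W` is closed under `+`, `-`, multiplication by `aeval t q`, by constants of `L`; under `*` because `β i * β j = Φ (b i * b j) ∈ W`.
* inverses: as in `KL/LatticeFree.lean`: `letI : Algebra L[X] F := (aeval t).toAlgebra`, `K = FractionRing L[X]`,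
  `FractionRing.liftAlgebra` (faithful by `ht`); `W` is the `K`-span of `β`, a `K`-subalgebra of `F` which is finite dimensional, so every
  `x ∈ W` is algebraic over `K` and `Subalgebra.inv_mem_of_algebraic` applies.
* so `W` is (the carrier of) a subfield containing `L` and `Φ F₀`: `hgen` gives `W = ⊤`. -/
theorem spans_baseChange {O F₀ L F : Type*} [CommRing O] [Field F₀] [Field L] [Field F] [Algebra L F]
    (ψ : O →+* L) (hψ : Function.Injective ψ) (φ : O →+* F₀) (Φ : F₀ →+* F)
    (hcomp : ∀ a : O, Φ (φ a) = algebraMap L F (ψ a))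
    (hgen : ∀ S : Subfield F, (∀ a : L, algebraMap L F a ∈ S) → (∀ y : F₀, Φ y ∈ S) → S = ⊤)
    (t₀ : F₀) (ht : ∀ q : L[X], aeval (Φ t₀) q = 0 → q = 0) {d : ℕ} (b : Fin d → F₀)
    (hb : ∀ y : F₀, ∃ (a : O[X]) (c : Fin d → O[X]), a ≠ 0 ∧
      eval₂ φ t₀ a * y = ∑ j, eval₂ φ t₀ (c j) * b j) :
    Spans L (Φ t₀) (fun j => Φ (b j)) := by
  classical
  set t : F := Φ t₀ with htdef
  set β : Fin d → F := fun j => Φ (b j) with hβ
  have hmem : ∀ q : L[X], aeval t q ∈ IntermediateField.adjoin L {t} := fun q =>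
    (IntermediateField.mem_adjoin_simple_iff L _).2 ⟨q, 1, by simp⟩
  have hΦ : ∀ a : O[X], Φ (eval₂ φ t₀ a) = aeval t (a.map ψ) := by
    intro a
    rw [Polynomial.hom_eval₂, aeval_def, eval₂_map]
    congr 1
    exact RingHom.ext hcomp
  set W : Submodule (IntermediateField.adjoin L {t}) F :=
    Submodule.span (IntermediateField.adjoin L {t}) (Set.range β) with hW
  have hΦW : ∀ y, Φ y ∈ W := by
    intro y
    obtain ⟨a, c, ha, h⟩ := hb y
    have h1 := congrArg Φ h
    rw [map_mul, map_sum, hΦ] at h1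
    have ha' : aeval t (a.map ψ) ≠ 0 := fun h0 =>
      ha ((Polynomial.map_eq_zero_iff hψ).mp (ht _ h0))
    have h2 : Φ y = ∑ j, (⟨aeval t ((c j).map ψ) / aeval t (a.map ψ),
        div_mem (hmem _) (hmem _)⟩ : IntermediateField.adjoin L {t}) • β j := by
      have h3 : ∀ j, (⟨aeval t ((c j).map ψ) / aeval t (a.map ψ),
          div_mem (hmem _) (hmem _)⟩ : IntermediateField.adjoin L {t}) • β j
          = (aeval t (a.map ψ))⁻¹ * Φ (eval₂ φ t₀ (c j) * b j) := by
        intro j
        rw [IntermediateField.smul_def, smul_eq_mul, map_mul, hΦ]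
        show aeval t ((c j).map ψ) / aeval t (a.map ψ) * Φ (b j) = _
        field_simp
      simp only [h3]
      rw [← Finset.mul_sum, ← h1, inv_mul_cancel_left₀ ha']
    rw [h2]
    exact Submodule.sum_mem _ fun j _ => Submodule.smul_mem _ _ (Submodule.subset_span ⟨j, rfl⟩)
  have hone : (1 : F) ∈ W := by
    have := hΦW 1
    rwa [map_one] at this
  have hmul : ∀ x y, x ∈ W → y ∈ W → x * y ∈ W := by
    have hle : W * W ≤ W := by
      rw [hW, Submodule.span_mul_span, Submodule.span_le]
      rintro _ ⟨_, ⟨i, rfl⟩, _, ⟨j, rfl⟩, rfl⟩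
      show Φ (b i) * Φ (b j) ∈ W
      rw [← map_mul]
      exact hΦW _
    exact fun x y hx hy => hle (Submodule.mul_mem_mul hx hy)
  let A : Subalgebra (IntermediateField.adjoin L {t}) F := W.toSubalgebra hone hmul
  have hfin : FiniteDimensional (IntermediateField.adjoin L {t}) A := by
    show FiniteDimensional (IntermediateField.adjoin L {t}) W
    exact FiniteDimensional.span_of_finite _ (Set.finite_range β)
  have hinv : ∀ x ∈ A, x⁻¹ ∈ A := by
    intro x hx
    have h1 : IsAlgebraic (IntermediateField.adjoin L {t}) (⟨x, hx⟩ : A) :=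
      Algebra.IsAlgebraic.isAlgebraic _
    exact A.inv_mem_of_algebraic (x := ⟨x, hx⟩) (h1.algebraMap (A := F))
  have htop := hgen (A.toIntermediateField hinv).toSubfield
    (by
      intro a
      have h1 : algebraMap L F a = (algebraMap L (IntermediateField.adjoin L {t}) a) • (1 : F) := by
        rw [IntermediateField.smul_def, smul_eq_mul, mul_one]
        rfl
      show algebraMap L F a ∈ W
      rw [h1]
      exact W.smul_mem _ hone)
    (fun y => hΦW y)
  intro x
  have hx : x ∈ (A.toIntermediateField hinv).toSubfield := by rw [htop]; trivial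
  exact SpansBC_of_mem_span β hx

end Fermat.Agent.GAL.KN
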