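import Mathlib

/-!
# GAL / KN / C / A4 : `a^m u` and `b^n u` integral, `a` prime, `a ∤ b`  ⇒  `u` integral   (integrally closed domain)
-/

set_option autoImplicit false

namespace Fermat.Agent.GAL.KN

open Polynomial

/-- `z ∈ Frac R`, `a ^ e * z ∈ R`, `b ^ e' * z ∈ R`, `a` prime, `a ∤ b` ⇒ `z ∈ R`. -/
theorem Ufd_mem_range {R K : Type*} [CommRing R] [IsDomain R] [Field K] [Algebra R K]
    [IsFractionRing R K] {a b : R} (ha : Prime a) (hab : ¬ a ∣ b) (e e' : ℕ) (z : K)
    (h1 : ∃ x : R, algebraMap R K x = z * algebraMap R K a ^ e)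
    (h2 : ∃ y : R, algebraMap R K y = z * algebraMap R K b ^ e') :
    ∃ r : R, algebraMap R K r = z := by
  obtain ⟨x, hx⟩ := h1
  obtain ⟨y, hy⟩ := h2
  have hinj := IsFractionRing.injective R K
  have h3 : x * b ^ e' = y * a ^ e := by
    apply hinj
    rw [map_mul, map_mul, map_pow, map_pow, hx, hy]
    ring
  have h4 : a ^ e ∣ x := by
    refine ha.pow_dvd_of_dvd_mul_right (b := b ^ e') e (fun h => hab (ha.dvd_of_dvd_pow h)) ?_
    exact ⟨y, by rw [h3, mul_comm]⟩
  obtain ⟨r, rfl⟩ := h4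
  refine ⟨r, ?_⟩
  have ha0 : algebraMap R K a ^ e ≠ 0 :=
    pow_ne_zero _ (by rw [Ne, map_eq_zero_iff _ hinj]; exact ha.ne_zero)
  apply mul_right_cancel₀ ha0
  rw [← hx, map_mul, map_pow, mul_comm]

/-- PROOF.  `letI := i.toAlgebra`, `K = FractionRing R`, `F₀` is a `K`-algebra (`FractionRing.liftAlgebra`, `i` injective).
`u` is algebraic over `K` (`i (a^m) * u` is integral, `a^m ≠ 0`).  Let `P = minpoly K u`, `N = natDegree P`.
For `c : R`, `c ≠ 0`: `minpoly K (c u) = P.scaleRoots c`.  If `c u` is integral over `R` then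
`minpoly K (c u)` has coefficients in `R` (`minpoly.isIntegrallyClosed_eq_field_fractions'`), i.e. `c ^ (N - l) * P.coeff l ∈ R`.
So `P` has coefficients in `R` (`Ufd_mem_range`) and `u` is integral. -/
theorem isIntegralElem_of_mul {R F₀ : Type*} [CommRing R] [IsDomain R] [IsIntegrallyClosed R]
    [Field F₀] (i : R →+* F₀) (hi : Function.Injective i) (a b : R) (ha : Prime a) (hb : b ≠ 0)
    (hab : ¬ a ∣ b) (m n : ℕ) (u : F₀) (h1 : i.IsIntegralElem (i (a ^ m) * u))
    (h2 : i.IsIntegralElem (i (b ^ n) * u)) : i.IsIntegralElem u := by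
  let _ := i.toAlgebra
  have hfaith : FaithfulSMul R F₀ := (faithfulSMul_iff_algebraMap_injective R F₀).2 hi
  let _ : Algebra (FractionRing R) F₀ := FractionRing.liftAlgebra R F₀
  have htower : IsScalarTower R (FractionRing R) F₀ := FractionRing.isScalarTower_liftAlgebra R F₀
  have hinj := IsFractionRing.injective R (FractionRing R)
  have h1' : IsIntegral R (i (a ^ m) * u) := h1
  have h2' : IsIntegral R (i (b ^ n) * u) := h2
  have ham : a ^ m ≠ 0 := pow_ne_zero _ ha.ne_zero
  have hbn : b ^ n ≠ 0 := pow_ne_zero _ hb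
  have hiam : i (a ^ m) ≠ 0 := by rw [Ne, map_eq_zero_iff _ hi]; exact ham
  have hsm : ∀ c : R, (algebraMap R (FractionRing R) c) • u = i c * u := by
    intro c
    rw [Algebra.smul_def, ← IsScalarTower.algebraMap_apply]
    rfl
  have hu : IsIntegral (FractionRing R) u := by
    have h3 : IsIntegral (FractionRing R) (i (a ^ m) * u) := h1'.tower_top
    have h4 : u = algebraMap (FractionRing R) F₀ (algebraMap R (FractionRing R) (a ^ m))⁻¹ *
        (i (a ^ m) * u) := by
      rw [map_inv₀, ← IsScalarTower.algebraMap_apply]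
      show u = (i (a ^ m))⁻¹ * (i (a ^ m) * u)
      rw [inv_mul_cancel_left₀ hiam]
    rw [h4]
    exact isIntegral_algebraMap.mul h3
  have key : ∀ c : R, c ≠ 0 → IsIntegral R (i c * u) → ∀ l, ∃ x : R,
      algebraMap R (FractionRing R) x = (minpoly (FractionRing R) u).coeff l *
        algebraMap R (FractionRing R) c ^ ((minpoly (FractionRing R) u).natDegree - l) := by
    intro c hc hint l
    have e1 := IsIntegrallyClosed.minpoly_smul (R := FractionRing R)
      (r := algebraMap R (FractionRing R) c) (by rw [Ne, map_eq_zero_iff _ hinj]; exact hc) hu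
    rw [hsm, minpoly.isIntegrallyClosed_eq_field_fractions' (FractionRing R) hint] at e1
    refine ⟨(minpoly R (i c * u)).coeff l, ?_⟩
    rw [← coeff_map, e1, coeff_scaleRoots]
  have hlift : minpoly (FractionRing R) u ∈ lifts (algebraMap R (FractionRing R)) := by
    rw [lifts_iff_coeff_lifts]
    intro l
    obtain ⟨x, hx⟩ := key _ ham h1' l
    obtain ⟨y, hy⟩ := key _ hbn h2' l
    rw [map_pow, ← pow_mul] at hx hy
    obtain ⟨r, hr⟩ := Ufd_mem_range ha hab _ _ _ ⟨x, hx⟩ ⟨y, hy⟩
    exact ⟨r, hr⟩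
  obtain ⟨Q, hQ, -, hQm⟩ := lifts_and_natDegree_eq_and_monic hlift (minpoly.monic hu)
  refine ⟨Q, hQm, ?_⟩
  have h5 := minpoly.aeval (FractionRing R) u
  rw [← hQ, aeval_map_algebraMap] at h5
  exact h5

end Fermat.Agent.GAL.KN
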