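import Fermat.Agent.GAL.KN.Defs
import Fermat.Agent.GAL.KLC.IsIntOrd

/-!
# GAL / KN / C : `Unr` in terms of places (abstract part of package KNC-U)

* `unr_of_ord` : if `t - c` has order `1` at every place where it vanishes then `Unr K t c`.
* `ord_eq_one_of_identity` : `(j - j₀) t ^ r = (t - c) ^ μ H(t)`, `c ≠ 0`, and `ord_P (j - j₀) ∣ μ`
  imply `ord_P (t - c) = 1`.
* `ord_inv_sub_inv` : the chart `t⁻¹`.
-/

set_option autoImplicit false

open AlgebraicCurve Polynomial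

namespace Fermat.Agent.GAL.KN

open Fermat.Agent.GAL.KL Fermat.Agent.S24

variable {K F : Type*} [Field K] [Field F] [Algebra K F]

theorem unrAbs_sub_ne_zero {t : F} (ht : Transcendental K t) (c : K) :
    t - algebraMap K F c ≠ 0 := by
  intro h
  apply ht
  rw [sub_eq_zero.1 h]
  exact isAlgebraic_algebraMap c

theorem unr_of_ord [IsAlgClosed K] [CharZero K] [FF.IsFF1 K F] {t : F} (ht : Transcendental K t)
    (c : K)
    (h : ∀ P : Place K F, 0 < P.ord (t - algebraMap K F c) → P.ord (t - algebraMap K F c) = 1) :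
    Unr K t c := by
  intro z N hz hzN
  rw [KLC.isInt_iff_forall_ord ht] at hz hzN ⊢
  intro P hP
  have hπ0 : t - algebraMap K F c ≠ 0 := unrAbs_sub_ne_zero ht c
  rcases eq_or_ne z 0 with rfl | hz0
  · simp
  have hπ : 0 ≤ P.ord (t - algebraMap K F c) := by
    apply FF.ord_nonneg_of_mem
    exact sub_mem (FF.mem_toValuationSubring_of_ord_nonneg P hP) (P.algebraMap_mem' c)
  have h1 := hz P hP
  have h2 := hzN P hP
  rw [div_eq_mul_inv, P.ord_mul (pow_ne_zero N hz0) (inv_ne_zero hπ0), P.ord_inv, FF.ord_pow] at h2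
  rw [div_eq_mul_inv, P.ord_mul hz0 (inv_ne_zero hπ0), P.ord_inv]
  rcases hπ.eq_or_lt with h0 | h0
  · omega
  · rw [h P h0] at h2 ⊢
    rcases h1.eq_or_lt with h3 | h3
    · rw [← h3] at h2
      simp at h2
    · omega

/-- if `t ≡ c ≠ 0` at `P` then `ord_P t = 0`. -/
theorem unrAbs_ord_eq_zero (P : Place K F) {t : F} {c : K} (hc : c ≠ 0)
    (hP : 0 < P.ord (t - algebraMap K F c)) : P.ord t = 0 := by
  have hc' : algebraMap K F c ≠ 0 := by simpa using hc
  have h0 : t - algebraMap K F c ≠ 0 := FF.ne_zero_of_ord_ne_zero P hP.ne'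
  have h := FF.ord_add_eq_of_lt P hc' h0 (by rw [FF.ord_algebraMap]; exact hP)
  rw [add_sub_cancel, FF.ord_algebraMap] at h
  exact h

theorem ord_eq_one_of_identity (P : Place K F) (j t : F) (j₀ c : K) (hc : c ≠ 0) (r μ : ℕ)
    (hμ : 0 < μ) (H : K[X])
    (hid : (j - algebraMap K F j₀) * t ^ r = (t - algebraMap K F c) ^ μ * aeval t H)
    (hne : j - algebraMap K F j₀ ≠ 0)
    (hdvd : 0 < P.ord (j - algebraMap K F j₀) → P.ord (j - algebraMap K F j₀) ∣ (μ : ℤ))
    (hP : 0 < P.ord (t - algebraMap K F c)) : P.ord (t - algebraMap K F c) = 1 := by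
  have ht0 : P.ord t = 0 := unrAbs_ord_eq_zero P hc hP
  have hπ0 : t - algebraMap K F c ≠ 0 := FF.ne_zero_of_ord_ne_zero P hP.ne'
  have htne : t ≠ 0 := by
    rintro rfl
    rw [zero_sub, FF.ord_neg, FF.ord_algebraMap] at hP
    exact lt_irrefl _ hP
  have hH0 : aeval t H ≠ 0 := by
    intro h0
    rw [h0, mul_zero] at hid
    exact (mul_ne_zero hne (pow_ne_zero r htne)) hid
  have hH : 0 ≤ P.ord (aeval t H) := by
    apply FF.ord_nonneg_of_mem
    exact FF.places_aeval_mem P.toValuationSubring P.algebraMap_mem'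
      (FF.mem_toValuationSubring_of_ord_nonneg P ht0.ge) H
  have h1 := congrArg P.ord hid
  rw [P.ord_mul hne (pow_ne_zero r htne), P.ord_mul (pow_ne_zero μ hπ0) hH0, FF.ord_pow,
    FF.ord_pow, ht0, mul_zero, add_zero] at h1
  have hμ' : (0 : ℤ) < μ := by exact_mod_cast hμ
  have h2 : (μ : ℤ) * 1 ≤ μ * P.ord (t - algebraMap K F c) :=
    mul_le_mul_of_nonneg_left hP hμ'.le
  have h3 : 0 < P.ord (j - algebraMap K F j₀) := by omega
  have h4 := Int.le_of_dvd hμ' (hdvd h3)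
  have h5 : (μ : ℤ) * P.ord (t - algebraMap K F c) ≤ μ * 1 := by omega
  have h6 := le_of_mul_le_mul_left h5 hμ'
  omega

/-- the chart `t⁻¹`. -/
theorem ord_inv_sub_inv (P : Place K F) {t : F} {c : K} (hc : c ≠ 0)
    (hP : 0 < P.ord (t⁻¹ - algebraMap K F c⁻¹)) :
    P.ord (t - algebraMap K F c) = P.ord (t⁻¹ - algebraMap K F c⁻¹) := by
  have hc' : algebraMap K F c ≠ 0 := by simpa using hc
  have h0 : P.ord t⁻¹ = 0 := unrAbs_ord_eq_zero P (inv_ne_zero hc) hP
  have hne : t⁻¹ - algebraMap K F c⁻¹ ≠ 0 := FF.ne_zero_of_ord_ne_zero P hP.ne'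
  have ht : t ≠ 0 := by
    rintro rfl
    rw [inv_zero, zero_sub, FF.ord_neg, FF.ord_algebraMap] at hP
    exact lt_irrefl _ hP
  have h1 : t - algebraMap K F c = -((t⁻¹ - algebraMap K F c⁻¹) * (t * algebraMap K F c)) := by
    rw [map_inv₀]
    field_simp
    ring
  rw [P.ord_inv] at h0
  rw [h1, FF.ord_neg, P.ord_mul hne (mul_ne_zero ht hc'), P.ord_mul ht hc', FF.ord_algebraMap]
  omega

theorem unr_inv_of_ord [IsAlgClosed K] [CharZero K] [FF.IsFF1 K F] {t : F}
    (ht : Transcendental K t) (c : K) (hc : c ≠ 0)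
    (h : ∀ P : Place K F, 0 < P.ord (t - algebraMap K F c) → P.ord (t - algebraMap K F c) = 1) :
    Unr K t⁻¹ c⁻¹ := by
  refine unr_of_ord (FF.transcendental_inv ht) c⁻¹ fun P hP => ?_
  have h1 := ord_inv_sub_inv P hc hP
  rw [← h1] at hP ⊢
  exact h P hP

end Fermat.Agent.GAL.KN
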