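import Fermat.Agent.GAL.Genus.Dict

/-!
# GAL / KN / C : ramification of `FN N` over the `j`-line (package KNC-U, modular input)

`ord_P (j - c)` divides the analytic order of `j - c` at any `τ₀` with `j(τ₀) = c`:
it is `1` for `c ≠ 0, 1728`, divides `3` for `c = 0`, divides `2` for `c = 1728`.
-/

set_option autoImplicit false

open UpperHalfPlane AlgebraicCurve Fermat.Agent.S24
open scoped MatrixGroups

namespace Fermat.Agent.GAL.KN

open Fermat.Agent.GAL.Genus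

theorem ord_JJ_sub_dvd (N : ℕ) [NeZero N] (c : Kb) (τ₀ : ℍ) (s : ℕ) (hs0 : 0 < s)
    (hs : meromorphicOrderAt (fun z : ℂ => jFun (ofComplex z) - iota c) (τ₀ : ℂ) = s)
    (P : Place Kb (FN N)) (hP : 0 < P.ord (JJ N - algebraMap Kb (FN N) c)) :
    P.ord (JJ N - algebraMap Kb (FN N) c) ∣ (s : ℤ) := by
  have hlt : ∀ i, Wat N τ₀ (phi N i (JJ N - algebraMap Kb (FN N) c)) < 1 := by
    intro i
    rw [Wat_phi_JJ_sub τ₀ c i s hs, ← WithZero.exp_zero, WithZero.exp_lt_exp]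
    omega
  obtain ⟨i, hi⟩ := FF.exists_index_of_place (K := Kb) (F := FN N)
    (FF.transcendental_sub_algebraMap (transcendental_JJ N) c) (𝓛 := LL N) (I := Cos N)
    (phi N) (phi_injective N)
    (fun i j => by rw [map_sub, map_sub, phi_JJ, phi_JJ, AlgHom.commutes, AlgHom.commutes])
    (by rw [FF.finrank_adjoin_sub_algebraMap, finrank_FN])
    (Wat N τ₀) (fun a ha => Wat_algebraMap_Kb τ₀ a ha) hlt P hP
  have hC : Centred (Wat N τ₀) i P := hi
  obtain ⟨m, -, hm⟩ := hC.exists_mul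
  have h1 := hm _ (FF.ne_zero_of_ord_ne_zero P hP.ne')
  rw [Wat_phi_JJ_sub τ₀ c i s hs, WithZero.log_exp, neg_neg] at h1
  exact ⟨m, by rw [h1, mul_comm]⟩

theorem ord_JJ_sub_generic (N : ℕ) [NeZero N] (c : Kb) (h0 : c ≠ 0) (h1 : c ≠ 1728)
    (P : Place Kb (FN N)) (hP : 0 < P.ord (JJ N - algebraMap Kb (FN N) c)) :
    P.ord (JJ N - algebraMap Kb (FN N) c) ∣ ((1 : ℕ) : ℤ) := by
  obtain ⟨τ₀, hτ₀⟩ := jFun_surjective (iota c)
  refine ord_JJ_sub_dvd N c τ₀ 1 one_pos ?_ P hP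
  rw [← hτ₀]
  refine order_jFun_sub_generic τ₀ ?_ ?_
  · rw [hτ₀]; exact li_iota_ne_zero h0
  · rw [hτ₀]
    intro h
    apply h1
    apply iota.injective
    rw [h, map_ofNat]

theorem ord_JJ_sub_zero (N : ℕ) [NeZero N]
    (P : Place Kb (FN N)) (hP : 0 < P.ord (JJ N - algebraMap Kb (FN N) 0)) :
    P.ord (JJ N - algebraMap Kb (FN N) 0) ∣ ((3 : ℕ) : ℤ) := by
  refine ord_JJ_sub_dvd N 0 rhoH 3 (by norm_num) ?_ P hP
  rw [map_zero]
  exact order_jFun_rhoH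

theorem ord_JJ_sub_1728 (N : ℕ) [NeZero N]
    (P : Place Kb (FN N)) (hP : 0 < P.ord (JJ N - algebraMap Kb (FN N) 1728)) :
    P.ord (JJ N - algebraMap Kb (FN N) 1728) ∣ ((2 : ℕ) : ℤ) := by
  refine ord_JJ_sub_dvd N 1728 UpperHalfPlane.I 2 (by norm_num) ?_ P hP
  rw [map_ofNat]
  exact order_jFun_sub_I

end Fermat.Agent.GAL.KN
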