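import Fermat.Agent.GAL.KN.C.UnrT
import Fermat.Agent.GAL.KN.C.UnrJ

/-!
# GAL / KN / C : the instance `F = FN N = FL Qb N` of `JRam`
-/

set_option autoImplicit false

open AlgebraicCurve Fermat.Agent.S24

namespace Fermat.Agent.GAL.KN

theorem jRam_FN (N : ℕ) [NeZero N] : JRam Kb (JJ N) where
  tr := transcendental_JJ N
  gen := fun c h0 h1 P hP => ord_JJ_sub_generic N c h0 h1 P hP
  zero := fun P hP => ord_JJ_sub_zero N P hP
  e1728 := fun P hP => ord_JJ_sub_1728 N P hP

end Fermat.Agent.GAL.KN
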