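import Fermat.Agent.GAL.KN.C.UnrAbs

/-!
# GAL / KN / C : `Unr` for the Hauptmoduln `t₂`, `t₃` (package KNC-U)

Abstract version: `F / K` a function field, `j : F` with the ramification of the modular `j` (`JRam`).
`t : F` with `j t² = (t+256)³` is unramified over every `c ≠ 0, -64`;
`t : F` with `j t³ = (t+27)(t+243)³` is unramified over every `c ≠ 0, -27`.
Same for the charts `t⁻¹`.  The instance `F = F` is in `UnrFN.lean`.
-/

set_option autoImplicit false

open AlgebraicCurve Polynomial Fermat.Agent.S24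

namespace Fermat.Agent.GAL.KN

open Fermat.Agent.GAL.KL

variable {K F : Type*} [Field K] [Field F] [Algebra K F]

/-- ramification of `F` over the `j`-line: `e = 1` over `c ≠ 0, 1728`, `e ∣ 3` over `0`, `e ∣ 2` over `1728`. -/
structure JRam (K : Type*) {F : Type*} [Field K] [Field F] [Algebra K F] (j : F) : Prop where
  tr : Transcendental K j
  gen : ∀ c : K, c ≠ 0 → c ≠ 1728 → ∀ P : Place K F, 0 < P.ord (j - algebraMap K F c) →
    P.ord (j - algebraMap K F c) ∣ ((1 : ℕ) : ℤ)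
  zero : ∀ P : Place K F, 0 < P.ord (j - algebraMap K F 0) →
    P.ord (j - algebraMap K F 0) ∣ ((3 : ℕ) : ℤ)
  e1728 : ∀ P : Place K F, 0 < P.ord (j - algebraMap K F 1728) →
    P.ord (j - algebraMap K F 1728) ∣ ((2 : ℕ) : ℤ)

section general

variable {j t : F} {r : ℕ} {Nt : K[X]}

theorem unrT_transcendental [IsAlgClosed K] (hj : Transcendental K j) (ht : j * t ^ r = aeval t Nt)
    (hr : 0 < r) (h0 : Nt.eval 0 ≠ 0) : Transcendental K t := by
  apply FF.transcendental_of_not_mem_range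
  rintro ⟨a, rfl⟩
  rw [aeval_algebraMap_apply, ← map_pow] at ht
  rcases eq_or_ne a 0 with rfl | ha
  · rw [zero_pow hr.ne', map_zero, mul_zero, Polynomial.coe_aeval_eq_eval] at ht
    exact h0 ((map_eq_zero (algebraMap K F)).1 ht.symm)
  · apply hj
    have h1 : j = algebraMap K F (aeval a Nt / a ^ r) := by
      rw [map_div₀, ← ht, mul_div_cancel_right₀]
      simpa using pow_ne_zero r ha
    rw [h1]
    exact isAlgebraic_algebraMap _

/-- values of `t` over generic values of `j`. -/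
theorem unrT_ord_generic (hj : JRam K j) (ht : j * t ^ r = aeval t Nt) (c : K) (hc0 : c ≠ 0)
    (h0 : Nt.eval c ≠ 0) (h1 : Nt.eval c ≠ 1728 * c ^ r) (P : Place K F)
    (hP : 0 < P.ord (t - algebraMap K F c)) : P.ord (t - algebraMap K F c) = 1 := by
  have hcr : c ^ r ≠ 0 := pow_ne_zero r hc0
  set j₀ : K := Nt.eval c / c ^ r with hj₀
  have hroot : (Nt - C j₀ * X ^ r).IsRoot c := by
    rw [IsRoot.def, eval_sub, eval_mul, eval_C, eval_pow, eval_X, hj₀, div_mul_cancel₀ _ hcr,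
      sub_self]
  obtain ⟨H, hH⟩ := dvd_iff_isRoot.2 hroot
  refine ord_eq_one_of_identity P j t j₀ c hc0 r 1 one_pos H ?_
    (unrAbs_sub_ne_zero hj.tr j₀) ?_ hP
  · have h2 := congrArg (aeval t) hH
    rw [map_sub, map_mul, map_mul, map_sub, map_pow, aeval_X, aeval_C, aeval_C] at h2
    rw [pow_one, ← h2, ← ht]
    ring
  · refine hj.gen j₀ ?_ ?_ P
    · exact div_ne_zero h0 hcr
    · intro h
      apply h1
      rw [← h, hj₀, div_mul_cancel₀ _ hcr]

end general

section two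

variable [CharZero K] {j t : F}

omit [CharZero K] in
theorem unrT_aeval_two (t : F) : aeval t ((X + 256) ^ 3 : K[X]) = (t + 256) ^ 3 := by
  rw [map_pow, map_add, aeval_X, map_ofNat]

omit [CharZero K] in
theorem ord_t2_sub (hj : JRam K j) (ht : j * t ^ 2 = (t + 256) ^ 3) (c : K) (hc0 : c ≠ 0) (hc : c ≠ -64)
    (P : Place K F) (hP : 0 < P.ord (t - algebraMap K F c)) :
    P.ord (t - algebraMap K F c) = 1 := by
  have ht' : j * t ^ 2 = aeval t ((X + 256) ^ 3 : K[X]) := by rw [unrT_aeval_two, ht]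
  by_cases h0 : ((X + 256) ^ 3 : K[X]).eval c = 0
  · -- `c = -256`
    have hc1 : c = -256 := by
      simp only [eval_pow, eval_add, eval_X, eval_ofNat] at h0
      have := pow_eq_zero_iff (three_ne_zero) |>.1 h0
      linear_combination this
    subst hc1
    refine ord_eq_one_of_identity P j t 0 (-256) hc0 2 3 (by norm_num) 1 ?_
      (unrAbs_sub_ne_zero hj.tr 0) (hj.zero P) hP
    rw [map_zero, sub_zero, ht, map_one, mul_one, map_neg, map_ofNat, sub_neg_eq_add]
  by_cases h1 : ((X + 256) ^ 3 : K[X]).eval c = 1728 * c ^ 2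
  · -- `c = 512`
    have hc1 : c = 512 := by
      simp only [eval_pow, eval_add, eval_X, eval_ofNat] at h1
      have h2 : (c + 64) * (c - 512) ^ 2 = 0 := by linear_combination h1
      rcases mul_eq_zero.1 h2 with h3 | h3
      · exact absurd (by linear_combination h3) hc
      · have := pow_eq_zero_iff (two_ne_zero) |>.1 h3
        linear_combination this
    subst hc1
    refine ord_eq_one_of_identity P j t 1728 512 hc0 2 2 (by norm_num) (X + 64) ?_
      (unrAbs_sub_ne_zero hj.tr 1728) (hj.e1728 P) hP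
    rw [map_ofNat, map_ofNat, map_add, aeval_X, map_ofNat]
    linear_combination ht
  exact unrT_ord_generic hj ht' c hc0 h0 h1 P hP

theorem transcendental_t2 [IsAlgClosed K] (hj : JRam K j) (ht : j * t ^ 2 = (t + 256) ^ 3) : Transcendental K t :=
  unrT_transcendental (Nt := (X + 256) ^ 3) hj.tr (by rw [unrT_aeval_two, ht]) two_pos (by simp)

theorem unr_t2 [IsAlgClosed K] [FF.IsFF1 K F] (hj : JRam K j) (ht : j * t ^ 2 = (t + 256) ^ 3) (c : K) (hc0 : c ≠ 0) (hc : c ≠ -64) :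
    Unr K t c :=
  unr_of_ord (transcendental_t2 hj ht) c (ord_t2_sub hj ht c hc0 hc)

theorem unr_t2_inv [IsAlgClosed K] [FF.IsFF1 K F] (hj : JRam K j) (ht : j * t ^ 2 = (t + 256) ^ 3) (c : K) (hc0 : c ≠ 0) (hc : c ≠ -64⁻¹) :
    Unr K t⁻¹ c := by
  have h := unr_inv_of_ord (transcendental_t2 hj ht) c⁻¹ (inv_ne_zero hc0)
    (ord_t2_sub hj ht c⁻¹ (inv_ne_zero hc0) (fun h => hc (by rw [← inv_inv c, h, inv_neg])))
  rwa [inv_inv] at h

end two

section three

variable [CharZero K] {j t : F}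

omit [CharZero K] in
theorem unrT_aeval_three (t : F) :
    aeval t ((X + 27) * (X + 243) ^ 3 : K[X]) = (t + 27) * (t + 243) ^ 3 := by
  rw [map_mul, map_pow, map_add, map_add, aeval_X, map_ofNat, map_ofNat]

omit [CharZero K] in
theorem ord_t3_sub (hj : JRam K j) (ht : j * t ^ 3 = (t + 27) * (t + 243) ^ 3) (c : K) (hc0 : c ≠ 0)
    (hc : c ≠ -27) (P : Place K F) (hP : 0 < P.ord (t - algebraMap K F c)) :
    P.ord (t - algebraMap K F c) = 1 := by
  have ht' : j * t ^ 3 = aeval t ((X + 27) * (X + 243) ^ 3 : K[X]) := by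
    rw [unrT_aeval_three, ht]
  by_cases h0 : ((X + 27) * (X + 243) ^ 3 : K[X]).eval c = 0
  · -- `c = -243`
    have hc1 : c = -243 := by
      simp only [eval_mul, eval_pow, eval_add, eval_X, eval_ofNat] at h0
      rcases mul_eq_zero.1 h0 with h3 | h3
      · exact absurd (by linear_combination h3) hc
      · have := pow_eq_zero_iff (three_ne_zero) |>.1 h3
        linear_combination this
    subst hc1
    refine ord_eq_one_of_identity P j t 0 (-243) hc0 3 3 (by norm_num) (X + 27) ?_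
      (unrAbs_sub_ne_zero hj.tr 0) (hj.zero P) hP
    rw [map_zero, sub_zero, ht, map_add, aeval_X, map_ofNat, map_neg, map_ofNat, sub_neg_eq_add]
    ring
  by_cases h1 : ((X + 27) * (X + 243) ^ 3 : K[X]).eval c = 1728 * c ^ 3
  · -- `c` is a root of `X² - 486 X - 19683`; the other root is `486 - c`
    simp only [eval_mul, eval_pow, eval_add, eval_X, eval_ofNat] at h1
    have h2 : (c ^ 2 - 486 * c - 19683) ^ 2 = 0 := by linear_combination h1
    have h3 : c ^ 2 - 486 * c - 19683 = 0 := pow_eq_zero_iff (two_ne_zero) |>.1 h2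
    refine ord_eq_one_of_identity P j t 1728 c hc0 3 2 (by norm_num)
      ((X - C (486 - c)) ^ 2) ?_
      (unrAbs_sub_ne_zero hj.tr 1728) (hj.e1728 P) hP
    rw [map_ofNat, map_pow, map_sub, aeval_X, aeval_C, map_sub, map_ofNat]
    have h4 : algebraMap K F c ^ 2 - 486 * algebraMap K F c - 19683 = 0 := by
      have := congrArg (algebraMap K F) h3
      rwa [map_sub, map_sub, map_mul, map_pow, map_ofNat, map_ofNat, map_zero] at this
    have h5 : (t - algebraMap K F c) * (t - (486 - algebraMap K F c))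
        = t ^ 2 - 486 * t - 19683 := by linear_combination -h4
    rw [← mul_pow, h5]
    linear_combination ht
  exact unrT_ord_generic hj ht' c hc0 h0 h1 P hP

theorem transcendental_t3 [IsAlgClosed K] (hj : JRam K j) (ht : j * t ^ 3 = (t + 27) * (t + 243) ^ 3) : Transcendental K t :=
  unrT_transcendental (Nt := (X + 27) * (X + 243) ^ 3) hj.tr (by rw [unrT_aeval_three, ht])
    three_pos (by simp)

theorem unr_t3 [IsAlgClosed K] [FF.IsFF1 K F] (hj : JRam K j) (ht : j * t ^ 3 = (t + 27) * (t + 243) ^ 3) (c : K) (hc0 : c ≠ 0)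
    (hc : c ≠ -27) : Unr K t c :=
  unr_of_ord (transcendental_t3 hj ht) c (ord_t3_sub hj ht c hc0 hc)

theorem unr_t3_inv [IsAlgClosed K] [FF.IsFF1 K F] (hj : JRam K j) (ht : j * t ^ 3 = (t + 27) * (t + 243) ^ 3) (c : K) (hc0 : c ≠ 0)
    (hc : c ≠ -27⁻¹) : Unr K t⁻¹ c := by
  have h := unr_inv_of_ord (transcendental_t3 hj ht) c⁻¹ (inv_ne_zero hc0)
    (ord_t3_sub hj ht c⁻¹ (inv_ne_zero hc0) (fun h => hc (by rw [← inv_inv c, h, inv_neg])))
  rwa [inv_inv] at h

end three

/-! ### the hypothesis `hbr` of `rootClosed_of_unr` -/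

section hbr

variable {Γ₀ : Type*} [LinearOrderedCommGroupWithZero Γ₀]

theorem hbr_of_unr (v : Valuation F Γ₀) (t : F) (c₀ : K) (hc₀ : v (algebraMap K F c₀) = 1)
    (h : ∀ c : K, c ≠ 0 → c ≠ c₀ → Unr K t c) :
    ∀ c c' : K, v (algebraMap K F c) ≤ 1 → c ≠ c' → v (algebraMap K F (c - c')) < 1 →
      Unr K t c ∨ Unr K t c' := by
  intro c c' _ hne hlt
  by_contra hcon
  rw [not_or] at hcon
  have h1 : ∀ a : K, ¬ Unr K t a → a = 0 ∨ a = c₀ := by
    intro a ha
    by_contra hh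
    rw [not_or] at hh
    exact ha (h a hh.1 hh.2)
  rcases h1 c hcon.1 with rfl | rfl <;> rcases h1 c' hcon.2 with rfl | rfl
  · exact hne rfl
  · rw [zero_sub, map_neg, Valuation.map_neg, hc₀] at hlt
    exact lt_irrefl _ hlt
  · rw [sub_zero, hc₀] at hlt
    exact lt_irrefl _ hlt
  · exact hne rfl

variable [CharZero K] [IsAlgClosed K] [FF.IsFF1 K F] {j t : F}

theorem hbr_t2 (hj : JRam K j) (ht : j * t ^ 2 = (t + 256) ^ 3) (v : Valuation F Γ₀)
    (h2 : v (2 : F) = 1) :
    ∀ c c' : K, v (algebraMap K F c) ≤ 1 → c ≠ c' → v (algebraMap K F (c - c')) < 1 →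
      Unr K t c ∨ Unr K t c' := by
  refine hbr_of_unr v t (-64) ?_ (unr_t2 hj ht)
  have : (64 : F) = 2 ^ 6 := by norm_num
  rw [map_neg, Valuation.map_neg, map_ofNat, this, map_pow, h2, one_pow]

theorem hbr_t2_inv (hj : JRam K j) (ht : j * t ^ 2 = (t + 256) ^ 3) (v : Valuation F Γ₀)
    (h2 : v (2 : F) = 1) :
    ∀ c c' : K, v (algebraMap K F c) ≤ 1 → c ≠ c' → v (algebraMap K F (c - c')) < 1 →
      Unr K t⁻¹ c ∨ Unr K t⁻¹ c' := by
  refine hbr_of_unr v t⁻¹ (-64⁻¹) ?_ (unr_t2_inv hj ht)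
  have : (64 : F) = 2 ^ 6 := by norm_num
  rw [map_neg, Valuation.map_neg, map_inv₀, map_inv₀, map_ofNat, this, map_pow, h2, one_pow,
    inv_one]

theorem hbr_t3 (hj : JRam K j) (ht : j * t ^ 3 = (t + 27) * (t + 243) ^ 3) (v : Valuation F Γ₀)
    (h3 : v (3 : F) = 1) :
    ∀ c c' : K, v (algebraMap K F c) ≤ 1 → c ≠ c' → v (algebraMap K F (c - c')) < 1 →
      Unr K t c ∨ Unr K t c' := by
  refine hbr_of_unr v t (-27) ?_ (unr_t3 hj ht)
  have : (27 : F) = 3 ^ 3 := by norm_num
  rw [map_neg, Valuation.map_neg, map_ofNat, this, map_pow, h3, one_pow]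

theorem hbr_t3_inv (hj : JRam K j) (ht : j * t ^ 3 = (t + 27) * (t + 243) ^ 3)
    (v : Valuation F Γ₀) (h3 : v (3 : F) = 1) :
    ∀ c c' : K, v (algebraMap K F c) ≤ 1 → c ≠ c' → v (algebraMap K F (c - c')) < 1 →
      Unr K t⁻¹ c ∨ Unr K t⁻¹ c' := by
  refine hbr_of_unr v t⁻¹ (-27⁻¹) ?_ (unr_t3_inv hj ht)
  have : (27 : F) = 3 ^ 3 := by norm_num
  rw [map_neg, Valuation.map_neg, map_inv₀, map_inv₀, map_ofNat, this, map_pow, h3, one_pow,
    inv_one]

end hbr

end Fermat.Agent.GAL.KN
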